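/-
Program MW-H (S17), brick X (HSetupExists) -- helper30.  Part 1: A FIXED BASIS CONTAINING A GIVEN
FIXED VECTOR.

Variant of `SemilinearDescent74.exists_fixed_basis`: for a smooth semilinear action of
`Gal(K/k)`, a finite-dimensional stable subspace `W` and a nonzero fixed vector `v₀ ∈ W` there is
a basis `x : Fin (n + 1) → V` of `W` consisting of fixed vectors with `x 0 = v₀`.
-/
import Mathlib
import Fermat.Agent.MW.Descent.SemilinearDescent74

set_option autoImplicit false

namespace Fermat.Agent.MW.Inst.FixedBasis30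

open Module Fermat.Agent.MW.Descent.SemilinearDescent74

variable {k K : Type*} [Field k] [Field K] [Algebra k K] [Normal k K]
variable {V : Type*} [AddCommGroup V] [Module K V]
variable {act : (K ≃ₐ[k] K) → V → V}

/-- **Galois descent with a prescribed first vector.** -/
theorem exists_fixed_basis_with_first (h : IsSemilinearAction act) (hs : IsSmooth act)
    (W : Submodule K V) [FiniteDimensional K W] (hW : ∀ σ, ∀ v ∈ W, act σ v ∈ W)
    (v₀ : V) (hv₀ : v₀ ∈ W) (hne : v₀ ≠ 0) (hfix : ∀ σ, act σ v₀ = v₀) :
    ∃ (n : ℕ) (x : Fin (n + 1) → V), (∀ σ i, act σ (x i) = x i) ∧ x 0 = v₀ ∧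
      LinearIndependent K x ∧ Submodule.span K (Set.range x) = W := by
  classical
  set s : Set V := {v | v ∈ W ∧ ∀ σ, act σ v = v} with hs_def
  have hspan : Submodule.span K s = W := by
    apply le_antisymm
    · exact Submodule.span_le.mpr fun v hv => hv.1
    · intro w hw
      exact mem_span_fixed h hs W hW hw
  have h0s : ({v₀} : Set V) ⊆ s := by
    rintro _ rfl
    exact ⟨hv₀, hfix⟩
  have h0li : LinearIndepOn K id ({v₀} : Set V) := by
    rw [LinearIndepOn]
    exact LinearIndependent.of_subsingleton (⟨v₀, rfl⟩ : ({v₀} : Set V)) hne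
  obtain ⟨b, hbs, h0b, hsb, hbli⟩ := exists_linearIndepOn_id_extension h0li h0s
  have hbli' : LinearIndependent K ((↑) : b → V) := hbli
  have hbspan : Submodule.span K b = W := by
    apply le_antisymm
    · rw [← hspan]
      exact Submodule.span_mono hbs
    · rw [← hspan]
      exact Submodule.span_le.mpr hsb
  have hbW : ∀ y : b, (y : V) ∈ W := fun y => (hbs y.2).1
  let f : b → W := fun y => ⟨y, hbW y⟩
  have hfli : LinearIndependent K f := by
    apply LinearIndependent.of_comp W.subtype
    exact hbli'
  have hfspan : ⊤ ≤ Submodule.span K (Set.range f) := by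
    rintro ⟨w, hw⟩ -
    have hw' : w ∈ Submodule.span K b := by rw [hbspan]; exact hw
    have : Submodule.span K (b : Set V) =
        (Submodule.span K (Set.range f)).map W.subtype := by
      rw [Submodule.map_span, ← Set.range_comp]
      congr 1
      exact (Subtype.range_coe).symm
    rw [this] at hw'
    obtain ⟨y, hy, hyw⟩ := hw'
    have : y = ⟨w, hw⟩ := Subtype.ext hyw
    rw [← this]
    exact hy
  let B : Basis b K W := Basis.mk hfli hfspan
  have hfin : Finite b := Module.Finite.finite_basis B
  have hcard : Nat.card b = finrank K W := (Module.finrank_eq_nat_card_basis B).symm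
  let y₀ : b := ⟨v₀, h0b rfl⟩
  have hpos : 0 < Nat.card b := Nat.card_pos_iff.mpr ⟨⟨y₀⟩, hfin⟩
  obtain ⟨n, hn⟩ : ∃ n, Nat.card b = n + 1 := ⟨Nat.card b - 1, by omega⟩
  let e₀ : b ≃ Fin (n + 1) := Finite.equivFinOfCardEq hn
  let e : b ≃ Fin (n + 1) := e₀.trans (Equiv.swap (e₀ y₀) 0)
  have he0 : e.symm 0 = y₀ := by
    rw [Equiv.symm_apply_eq]
    simp [e]
  refine ⟨n, fun i => ((e.symm i : b) : V), fun σ i => (hbs (e.symm i).2).2 σ, ?_, ?_, ?_⟩
  · show ((e.symm 0 : b) : V) = v₀
    rw [he0]
  · exact hbli'.comp e.symm e.symm.injective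
  · have hrange : Set.range (fun i => ((e.symm i : b) : V)) = b := by
      change Set.range (Subtype.val ∘ e.symm) = b
      rw [Set.range_comp, e.symm.surjective.range_eq, Set.image_univ, Subtype.range_coe]
    rw [hrange, hbspan]

end Fermat.Agent.MW.Inst.FixedBasis30
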