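/-
Program MW-H (S17), brick X (HSetupExists) -- helper30.  Part 2: AN EQUIVARIANT SYSTEM OF
UNIFORMISERS.

Setting: `K` algebraically closed of characteristic zero, `F / K` a function field with generator
`u`, a group `Γ` acting semilinearly through `γ`, a `Γ`-fixed place `inf`, a tuple `x` of
`Γ`-fixed functions spanning `L(m · inf)`, `m ≥ 2g + 1`, and a `Γ`-fixed uniformiser `t₀` at `inf`.

* `cand x P a = x a - x_a(P)`; `exists_good`: for `P ≠ inf` some `cand x P a` is a uniformiser at
  `P` (Riemann-Roch: `L(m·inf - 2P) ⊊ L(m·inf - P)`);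
* `unif x inf t₀ P`: `t₀` at `inf`, otherwise `cand x P a` for the FIRST good index `a`;
* `isUnifSystem_unif`: this is an equivariant system of uniformisers (`Contract7.IsUnifSystem`).
-/
import Mathlib
import Fermat.Agent.MW.FF.VeryAmple49

set_option autoImplicit false
set_option linter.unusedSectionVars false

open AlgebraicCurve

namespace Fermat.Agent.MW.Inst.Unif30

open Fermat.Agent.MW.Spec.Defs7 Fermat.Agent.MW.Spec.Contract7
open Fermat.Agent.X0 Fermat.Agent.X0.FF
open Fermat.Agent.MW.FF.EvalLead49 Fermat.Agent.MW.FF.VeryAmple49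
open scoped WithZero

section Cand

variable {K F : Type*} [Field K] [Field F] [Algebra K F] {n : ℕ}

/-- The candidate uniformiser `x a - x_a(P)` at the place `P`. -/
noncomputable def cand (x : Fin (n + 1) → F) (P : Place K F) (a : Fin (n + 1)) : F :=
  x a - algebraMap K F (evalAt P (x a))

/-- The index `a` is good at `P`: `x a - x_a(P)` is a uniformiser at `P`. -/
def IsGood (x : Fin (n + 1) → F) (P : Place K F) (a : Fin (n + 1)) : Prop :=
  P.ord (cand x P a) = 1

/-- Equivariance of the candidates (for fixed functions). -/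
theorem cand_smul (g : SemilinearAut K F) (x : Fin (n + 1) → F) (P : Place K F)
    (a : Fin (n + 1)) (hx : g • x a = x a) : cand x (g • P) a = g • cand x P a := by
  unfold cand
  rw [smul_sub, SemilinearAut.smul_algebraMap, hx]
  congr 2
  have h := evalAt_smul_aut g P (x a)
  rw [hx] at h
  exact h

theorem isGood_smul_iff (g : SemilinearAut K F) (x : Fin (n + 1) → F) (P : Place K F)
    (a : Fin (n + 1)) (hx : g • x a = x a) : IsGood x (g • P) a ↔ IsGood x P a := by
  unfold IsGood
  rw [cand_smul g x P a hx, SemilinearAut.ord_smul]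

open Classical in
/-- The first good index at `P` (junk value `0` if there is none). -/
noncomputable def goodIdx (x : Fin (n + 1) → F) (P : Place K F) : Fin (n + 1) :=
  if h : ∃ a, IsGood x P a then Fin.find (IsGood x P) h else 0

theorem isGood_goodIdx {x : Fin (n + 1) → F} {P : Place K F} (h : ∃ a, IsGood x P a) :
    IsGood x P (goodIdx x P) := by
  classical
  unfold goodIdx
  rw [dif_pos h]
  exact Fin.find_spec h

theorem goodIdx_congr {x : Fin (n + 1) → F} {P P' : Place K F}
    (h : ∀ a, IsGood x P a ↔ IsGood x P' a) : goodIdx x P = goodIdx x P' := by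
  classical
  unfold goodIdx
  by_cases hP : ∃ a, IsGood x P a
  · have hP' : ∃ a, IsGood x P' a := by
      obtain ⟨a, ha⟩ := hP
      exact ⟨a, (h a).1 ha⟩
    rw [dif_pos hP, dif_pos hP', Fin.find_eq_iff]
    refine ⟨(h _).2 (Fin.find_spec hP'), fun j hj hj' => ?_⟩
    exact Fin.find_min hP' hj ((h j).1 hj')
  · have hP' : ¬ ∃ a, IsGood x P' a := by
      rintro ⟨a, ha⟩
      exact hP ⟨a, (h a).2 ha⟩
    rw [dif_neg hP, dif_neg hP']

open Classical in
/-- The system of uniformisers: `t₀` at `inf`, the first good candidate elsewhere. -/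
noncomputable def unif (x : Fin (n + 1) → F) (inf : Place K F) (t₀ : F) (P : Place K F) : F :=
  if P = inf then t₀ else cand x P (goodIdx x P)

end Cand

section Exists

variable {K F : Type*} [Field K] [Field F] [Algebra K F] [IsAlgClosed K] [CharZero K]
  [HasCanonicalDivisor (K := K) (F := F)] {u : F} {n : ℕ}

/-- **Riemann-Roch**: away from `inf`, one of the functions `x a - x_a(P)` is a uniformiser at `P`,
when `x` spans `L(m · inf)` with `m ≥ 2g + 1`. -/
theorem exists_good (hu : IsGen K u) (inf : Place K F) (m : ℕ)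
    (hm : 2 * genus K F + 1 ≤ m) (x : Fin (n + 1) → F)
    (hspan : Submodule.span K (Set.range x) =
      riemannRochSpace (K := K) (F := F) (Finsupp.single inf ((m : ℕ) : ℤ)))
    (P : Place K F) (hP : P ≠ inf) : ∃ a, IsGood x P a := by
  classical
  set D : Divisor K F := Finsupp.single inf ((m : ℕ) : ℤ) with hD
  have hDP : D P = 0 := by
    rw [hD, Finsupp.single_apply, if_neg (Ne.symm hP)]
  have hdeg : Divisor.degree D = (m : ℤ) := degree_single' hu inf _
  -- a function in `L(D - P)` not in `L(D - 2P)`
  obtain ⟨f, hf, hnot⟩ := exists_mem_L_not_mem hu (D - Finsupp.single P 1) P (by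
    rw [map_sub, hdeg, degree_single' hu]
    have : (2 * genus K F + 1 : ℤ) ≤ m := by exact_mod_cast hm
    omega)
  obtain ⟨hfD, hf1⟩ := mem_L_sub_single.mp hf
  have hf2 : ¬ (f = 0 ∨ 2 ≤ P.ord f) := by
    intro h
    apply hnot
    refine mem_L_sub_single.mpr ⟨hf, ?_⟩
    rcases h with h | h
    · exact Or.inl h
    · right
      rw [Finsupp.sub_apply, hDP, Finsupp.single_apply, if_pos rfl]
      omega
  rw [not_or] at hf2
  obtain ⟨hf0, hf2⟩ := hf2
  have hf1' : 1 ≤ P.ord f := by
    rcases hf1 with h | h
    · exact absurd h hf0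
    · rw [hDP] at h
      omega
  -- expand `f` in the tuple `x`
  obtain ⟨c, hc⟩ := exists_eq_sum hu D x hspan hfD
  have hres : HasResK P := hasResK hu P
  -- the `x a` are regular at `P`
  have hxval : ∀ a, IsValAt P (x a) (evalAt P (x a)) := by
    intro a
    apply evalAt_spec hres
    rw [Place.adicValuation_le_one_iff]
    have hxa : x a ∈ riemannRochSpace D := by
      rw [← hspan]
      exact Submodule.subset_span ⟨a, rfl⟩
    rcases mem_riemannRochSpace_iff.mp hxa P with h | h
    · exact Or.inl h
    · right
      rw [hDP] at h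
      omega
  -- the value of `f` at `P` is `0`
  have hsumval : ∀ s : Finset (Fin (n + 1)),
      IsValAt P (∑ a ∈ s, c a • x a) (∑ a ∈ s, c a * evalAt P (x a)) := by
    intro s
    induction s using Finset.induction_on with
    | empty => simpa using (isValAt_zero (P := P))
    | insert a s ha ih =>
      rw [Finset.sum_insert ha, Finset.sum_insert ha]
      exact ((hxval a).smul (c a)).add ih
  have hval0 : ∑ a, c a * evalAt P (x a) = 0 := by
    have h1 : IsValAt P f (∑ a, c a * evalAt P (x a)) := by
      rw [hc]
      exact hsumval Finset.univ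
    have h2 : IsValAt P f 0 := isValAt_zero_iff_ord.mpr (Or.inr (by omega))
    exact h1.unique h2
  -- `f` is a combination of the candidates
  have hfc : f = ∑ a, c a • cand x P a := by
    have h1 : ∑ a, c a • cand x P a =
        ∑ a, c a • x a - algebraMap K F (∑ a, c a * evalAt P (x a)) := by
      rw [map_sum, ← Finset.sum_sub_distrib]
      refine Finset.sum_congr rfl fun a _ => ?_
      unfold cand
      rw [smul_sub, Algebra.smul_def (c a) (algebraMap K F _), ← map_mul]
    rw [h1, hval0, map_zero, sub_zero, ← hc]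
  -- if no index were good, `f` would vanish to order `≥ 2`
  by_contra hno
  push Not at hno
  apply hf2
  have hsmall : ∀ a, P.adicValuation (c a • cand x P a) ≤ WithZero.exp (-2 : ℤ) := by
    intro a
    have h1 : P.adicValuation (cand x P a) ≤ WithZero.exp (-2 : ℤ) := by
      rw [Place.adicValuation_le_exp_iff]
      have h2 : cand x P a = 0 ∨ 0 < P.ord (cand x P a) :=
        (adicValuation_lt_one_iff P).mp (hxval a)
      rcases h2 with h2 | h2
      · exact Or.inl h2
      · right
        have h3 : P.ord (cand x P a) ≠ 1 := hno a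
        omega
    rw [Algebra.smul_def, map_mul]
    exact (mul_le_of_le_one_left' (P.adicValuation_algebraMap_le_one (c a))).trans h1
  have hle : P.adicValuation f ≤ WithZero.exp (-2 : ℤ) := by
    rw [hfc]
    exact Valuation.map_sum_le _ fun a _ => hsmall a
  rcases (Place.adicValuation_le_exp_iff P).mp hle with h | h
  · exact absurd h hf0
  · omega

end Exists

section Main

variable {K F : Type*} [Field K] [Field F] [Algebra K F] [IsAlgClosed K] [CharZero K]
  [HasCanonicalDivisor (K := K) (F := F)] {u : F} {n : ℕ}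
variable {Γ : Type*} [Group Γ] (γ : Γ →* SemilinearAut K F)

/-- **An equivariant system of uniformisers.** -/
theorem isUnifSystem_unif (hu : IsGen K u) (inf : Place K F) (hinf : ∀ σ : Γ, γ σ • inf = inf)
    (m : ℕ) (hm : 2 * genus K F + 1 ≤ m) (x : Fin (n + 1) → F)
    (hxfix : ∀ (σ : Γ) (a : Fin (n + 1)), γ σ • x a = x a)
    (hspan : Submodule.span K (Set.range x) =
      riemannRochSpace (K := K) (F := F) (Finsupp.single inf ((m : ℕ) : ℤ)))
    (t₀ : F) (ht₀ : inf.ord t₀ = 1) (ht₀fix : ∀ σ : Γ, γ σ • t₀ = t₀) :
    IsUnifSystem γ (unif x inf t₀) := by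
  classical
  refine ⟨fun P => ?_, fun σ P => ?_⟩
  · unfold unif
    by_cases hP : P = inf
    · rw [if_pos hP, hP]
      exact ht₀
    · rw [if_neg hP]
      exact isGood_goodIdx (exists_good hu inf m hm x hspan P hP)
  · unfold unif
    by_cases hP : P = inf
    · rw [hP, hinf σ, if_pos rfl, ht₀fix σ]
    · have hP' : γ σ • P ≠ inf := by
        intro h
        apply hP
        have h1 : (γ σ)⁻¹ • (γ σ • P) = (γ σ)⁻¹ • inf := by rw [h]
        rw [inv_smul_smul] at h1
        rw [h1, ← hinf σ, inv_smul_smul, hinf σ]
      rw [if_neg hP, if_neg hP']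
      have hidx : goodIdx x (γ σ • P) = goodIdx x P :=
        goodIdx_congr fun a => isGood_smul_iff (γ σ) x P a (hxfix σ a)
      rw [hidx]
      exact cand_smul (γ σ) x P _ (hxfix σ _)

end Main

end Fermat.Agent.MW.Inst.Unif30
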