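/-
Program MW-H (S17), brick X (HSetupExists) -- helper30.  Part 3: THE STANDING DATA EXIST.

For every level `N` there is standing data `S : Bricks7b.HSetup (Fbar N)` for the height machine on
the modular function field `Fbar N = ℚ̄(X₀(N))`, whose Galois action is the arithmetic one
(`Prelude`'s `arithmeticGalois`): exactly the two arguments `S`, `hγ` of
`Spec/Assemble7.heightMain_of_top`.

* `γ`   := `arithmeticGalois (modularFunctionFieldFull N)`; smooth by `OpenStab12.hasLevel_elt`;
* `u`   := `jF N` (`HasCanDivInst.isGen`), fixed by `OpenStab12.arithmeticGalois_smul_jF`;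
* `inf` := the place of the `q`-expansion embedding `Fbar N ⊆ ℚ̄((q))` (`infPlace`), fixed because
  coefficientwise automorphisms preserve the `q`-order;
* `x`   := a `Γ`-fixed basis of `L(2 m₀ · inf)`, `m₀ = 2 g + 1`, with `x 0 = 1` (`FixedBasis30`);
* `t`   := the equivariant system of uniformisers of `Unif30`, with `t inf = 1 / j`;
* `A`   := `QbarAbsExists62.qbarAbs`.
-/
import Mathlib
import Fermat.Agent.MW.Inst.FixedBasis30
import Fermat.Agent.MW.Inst.Unif30
import Fermat.Agent.MW.Spec.Bricks7b
import Fermat.Agent.MW.Arith.QbarAbsExists62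
import Fermat.Agent.ES.GAL.OpenStab12
import Fermat.Agent.ES.N34.ModEqBar23
import Fermat.Agent.ES.P36.DescTools1
import Fermat.Agent.IG.AN.ModPoly3
import Fermat.Agent.X0.HasCanDivInst
import Fermat.Agent.X0.RootsK
import Fermat.Agent.RR.RRMain

set_option autoImplicit false
set_option linter.unusedSectionVars false

open AlgebraicCurve ModularCurve

namespace Fermat.Agent.MW.Inst.HSetupExists30

open Fermat.Agent.MW.Spec.Defs7 Fermat.Agent.MW.Spec.Contract7 Fermat.Agent.MW.Spec.Bricks7b
open Fermat.Agent.X0 Fermat.Agent.X0.FF
open Fermat.Agent.MW.Descent.SemilinearDescent74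
open Fermat.Agent.MW.Inst.FixedBasis30 Fermat.Agent.MW.Inst.Unif30
open Fermat.Agent.ES.N34.ModEqBar23 (valHom valHom_apply valHom_const embPlace_ord_eq)

/-! ### Generalities: stability of `L(k · inf)` for a fixed place -/

section General

variable {K F : Type*} [Field K] [Field F] [Algebra K F]

/-- `L(k · inf)` is stable under a semilinear automorphism fixing `inf`. -/
theorem smul_mem_L_single (g : SemilinearAut K F) (inf : Place K F) (hg : g • inf = inf) (k : ℤ)
    {f : F} (hf : f ∈ riemannRochSpace (K := K) (F := F) (Finsupp.single inf k)) :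
    g • f ∈ riemannRochSpace (K := K) (F := F) (Finsupp.single inf k) := by
  classical
  rw [mem_riemannRochSpace_iff] at hf ⊢
  intro v
  have hginv : g⁻¹ • inf = inf := by
    conv_lhs => rw [← hg]
    exact inv_smul_smul g inf
  rcases hf (g⁻¹ • v) with h | h
  · left
    rw [h, smul_zero]
  · right
    have h1 : (Finsupp.single inf k) (g⁻¹ • v) = (Finsupp.single inf k) v := by
      rw [Finsupp.single_apply, Finsupp.single_apply]
      have hiff : inf = g⁻¹ • v ↔ inf = v := by
        constructor
        · intro h2
          have h3 : g • inf = g • (g⁻¹ • v) := congrArg (g • ·) h2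
          rw [smul_inv_smul, hg] at h3
          exact h3
        · intro h2
          rw [← h2, hginv]
      by_cases hv : inf = v
      · rw [if_pos hv, if_pos (hiff.2 hv)]
      · rw [if_neg hv, if_neg (fun h2 => hv (hiff.1 h2))]
    have h2 : v.ord (g • f) = (g⁻¹ • v).ord f := by
      have h3 := SemilinearAut.ord_smul g (g⁻¹ • v) f
      rwa [smul_inv_smul] at h3
    rw [h2, ← h1]
    exact h

/-- `1 ∈ L(k · inf)` for `k ≥ 0`. -/
theorem one_mem_L_single (inf : Place K F) (k : ℕ) :
    (1 : F) ∈ riemannRochSpace (K := K) (F := F) (Finsupp.single inf ((k : ℕ) : ℤ)) := by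
  classical
  rw [mem_riemannRochSpace_iff]
  intro v
  right
  rw [Place.ord_one, Finsupp.single_apply]
  split_ifs
  · have : (0 : ℤ) ≤ (k : ℤ) := Int.natCast_nonneg k
    omega
  · simp

end General

/-! ### The arithmetic Galois action on `Fbar N` -/

section Modular

variable (N : ℕ) [NeZero N]

/-- The arithmetic action as a plain function. -/
noncomputable def act : GQ → FF N → FF N :=
  fun σ f => arithmeticGalois (modularFunctionFieldFull N) σ • f

theorem act_smul (σ : GQ) (a : Qb) (v : FF N) : act N σ (a • v) = σ a • act N σ v := by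
  unfold act
  rw [Algebra.smul_def, Algebra.smul_def, smul_mul', SemilinearAut.smul_algebraMap,
    baseAut_arithmeticGalois]
  rfl

theorem isSemilinearAction_act :
    IsSemilinearAction (k := ℚ) (K := Qb) (V := FF N) (act N) where
  one v := by
    change arithmeticGalois (modularFunctionFieldFull N) 1 • v = v
    rw [map_one, one_smul]
  mul σ τ v := by
    change arithmeticGalois (modularFunctionFieldFull N) (σ * τ) • v =
      arithmeticGalois (modularFunctionFieldFull N) σ •
        (arithmeticGalois (modularFunctionFieldFull N) τ • v)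
    rw [map_mul, mul_smul]
  add σ v w := smul_add (arithmeticGalois (modularFunctionFieldFull N) σ) v w
  smul σ a v := act_smul N σ a v

theorem isSmooth_act : IsSmooth (k := ℚ) (K := Qb) (V := FF N) (act N) :=
  fun f => Fermat.Agent.ES.GAL.OpenStab12.hasLevel_elt N f

/-! ### The place at infinity -/

theorem jF_ne_zero : jF N ≠ 0 := (HasCanDivInst.isGen N).ne_zero

theorem order_valHom_jF : (valHom N (jF N)).order = -1 := by
  rw [valHom_apply, coe_jF, jqK_eq_jqModC]
  exact Fermat.Agent.IG.AN.ModPoly3.order_jqModC Kbar

theorem infPlace_nontrivial : ∃ f : FF N, f ≠ 0 ∧ (valHom N f).order ≠ 0 :=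
  ⟨jF N, jF_ne_zero N, by rw [order_valHom_jF]; decide⟩

/-- The place at infinity of `Fbar N`: the place of the `q`-expansion. -/
noncomputable def infPlace : Place Kbar (FF N) :=
  LaurentPlace.embPlace (valHom N) (valHom_const N) (infPlace_nontrivial N)

/-- The order at infinity is the `q`-order. -/
theorem infPlace_ord {f : FF N} (hf : f ≠ 0) :
    (infPlace N).ord f = ((f : FF N) : LaurentSeries Kbar).order :=
  embPlace_ord_eq (valHom N) (valHom_const N) (infPlace_nontrivial N) (jF_ne_zero N)
    (order_valHom_jF N) hf

theorem infPlace_ord_jF : (infPlace N).ord (jF N) = -1 := by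
  rw [infPlace_ord N (jF_ne_zero N)]
  exact order_valHom_jF N

theorem infPlace_ord_inv_jF : (infPlace N).ord (jF N)⁻¹ = 1 := by
  rw [Place.ord_inv, infPlace_ord_jF]
  norm_num

/-- The arithmetic Galois action preserves the `q`-order. -/
theorem order_smul (σ : GQ) (f : FF N) :
    ((arithmeticGalois (modularFunctionFieldFull N) σ • f : FF N) : LaurentSeries Kbar).order =
      ((f : FF N) : LaurentSeries Kbar).order := by
  rw [coe_arithmeticGalois_smul]
  exact Fermat.Agent.ES.P36.DescTools1.order_coeffMap _ _

/-- The place at infinity is fixed by the arithmetic Galois action. -/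
theorem smul_infPlace (σ : GQ) :
    arithmeticGalois (modularFunctionFieldFull N) σ • infPlace N = infPlace N := by
  refine LaurentPlace.eq_embPlace_of_spec (valHom N) (valHom_const N) (infPlace_nontrivial N) _
    (m := 1) one_pos fun f hf => ?_
  set g := arithmeticGalois (modularFunctionFieldFull N) σ with hg
  have hf' : g⁻¹ • f ≠ 0 := by
    intro h
    apply hf
    have h1 : g • (g⁻¹ • f) = g • (0 : FF N) := by rw [h]
    rwa [smul_inv_smul, smul_zero] at h1
  have h1 : (g • infPlace N).ord f = (infPlace N).ord (g⁻¹ • f) := by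
    have h2 := SemilinearAut.ord_smul g (infPlace N) (g⁻¹ • f)
    rwa [smul_inv_smul] at h2
  rw [h1, infPlace_ord N hf', Nat.cast_one, one_mul, valHom_apply]
  have h3 := order_smul N σ (g⁻¹ • f)
  rw [← hg, smul_inv_smul] at h3
  exact h3

theorem smul_inv_jF (σ : GQ) :
    arithmeticGalois (modularFunctionFieldFull N) σ • (jF N)⁻¹ = (jF N)⁻¹ := by
  rw [smul_inv'', Fermat.Agent.ES.GAL.OpenStab12.arithmeticGalois_smul_jF]

/-! ### The standing data -/

/-- **Brick X.**  The standing data of the height machine exist on the modular function field,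
with the arithmetic Galois action. -/
theorem hSetupExists
    [HasCanonicalDivisor (K := Qb) (F := ↥(modularFunctionFieldBar N))] :
    ∃ S : HSetup ↥(modularFunctionFieldBar N),
      S.γ = arithmeticGalois (modularFunctionFieldFull N) := by
  classical
  have hu : IsGen Qb (jF N) := HasCanDivInst.isGen N
  have hcl : IsAlgClosure ℚ (AlgebraicClosure ℚ) :=
    ⟨inferInstance, AlgebraicClosure.isAlgebraic ℚ⟩
  have hnorm : Normal ℚ Qb := IsAlgClosure.normal ℚ (AlgebraicClosure ℚ)
  set m₀ : ℕ := 2 * genus Qb (FF N) + 1 with hm₀
  set D : Divisor Qb (FF N) := Finsupp.single (infPlace N) ((2 * m₀ : ℕ) : ℤ) with hD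
  have : FiniteDimensional Qb (riemannRochSpace (K := Qb) (F := FF N) D) :=
    Fermat.Agent.RR.RRMain.finiteDimensional_L hu D
  obtain ⟨n, x, hxfix, hx0, hxli, hxspan⟩ :=
    exists_fixed_basis_with_first (isSemilinearAction_act N) (isSmooth_act N)
      (riemannRochSpace (K := Qb) (F := FF N) D)
      (fun σ v hv => smul_mem_L_single _ (infPlace N) (smul_infPlace N σ) _ hv)
      1 (one_mem_L_single (infPlace N) (2 * m₀)) one_ne_zero (fun σ => smul_one _)
  have hunif : IsUnifSystem (arithmeticGalois (modularFunctionFieldFull N))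
      (unif x (infPlace N) (jF N)⁻¹) :=
    isUnifSystem_unif (arithmeticGalois (modularFunctionFieldFull N)) hu (infPlace N)
      (smul_infPlace N) (2 * m₀)
      (show 2 * genus Qb (FF N) + 1 ≤ 2 * (2 * genus Qb (FF N) + 1) by omega) x hxfix hxspan
      (jF N)⁻¹
      (infPlace_ord_inv_jF N)
      (smul_inv_jF N)
  exact ⟨{ γ := arithmeticGalois (modularFunctionFieldFull N)
           A := Fermat.Agent.MW.Arith.QbarAbsExists62.qbarAbs
           u := jF N
           inf := infPlace N
           m₀ := m₀
           n := n
           x := x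
           t := unif x (infPlace N) (jF N)⁻¹
           base := fun σ a => rfl
           smooth := Fermat.Agent.ES.GAL.OpenStab12.hasLevel_elt N
           gen := hu
           u_fixed := Fermat.Agent.ES.GAL.OpenStab12.arithmeticGalois_smul_jF N
           inf_fixed := smul_infPlace N
           unif := hunif
           m₀_large := le_refl _
           x_fixed := hxfix
           x_zero := hx0
           x_indep := hxli
           x_span := hxspan }, rfl⟩

end Modular

end Fermat.Agent.MW.Inst.HSetupExists30
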