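/-
Program MW-H (S17), brick X (instantiation), helper49: EQUIVARIANT SYSTEMS OF UNIFORMISERS EXIST.

Setting: `K` algebraically closed of characteristic zero, `F / K` a function field with generator
`u`, a group `Γ` acting semilinearly through `γ`, a `Γ`-fixed place `inf`, a `Γ`-fixed tuple `x`
spanning `L(m · inf)` with `m ≥ 2g + 1`, and a `Γ`-fixed uniformiser `t₀` at `inf`.  Then

    t inf := t₀,     t P := x a - x a (P)  for the FIRST index `a` for which this has order one at `P`

is an equivariant system of uniformisers (`Contract7.IsUnifSystem γ t`).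

* `exists_index_ord_eq_one` : for `P ≠ inf` some `x a - x a (P)` has order exactly one at `P`
  (from `L(m inf - P) ⊋ L(m inf - 2 P)`, Riemann-Roch);
* `exists_unifSystem` : the theorem.
-/
import Mathlib
import Fermat.Agent.MW.FF.VeryAmple49
import Fermat.Agent.MW.FF.LeadLinear49

set_option autoImplicit false
set_option linter.unusedSectionVars false
set_option linter.style.haveILetI false

open AlgebraicCurve IntermediateField

namespace Fermat.Agent.MW.Inst.Unif49

open Fermat.Agent.MW.Spec.Defs7 Fermat.Agent.MW.Spec.Contract7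
open Fermat.Agent.X0 Fermat.Agent.X0.FF
open Fermat.Agent.MW.FF.EvalLead49 Fermat.Agent.MW.FF.VeryAmple49
open Fermat.Agent.MW.FF.LeadLinear49
open scoped Classical

noncomputable section

variable {K F : Type} [Field K] [Field F] [Algebra K F] [IsAlgClosed K] [CharZero K]
  [HasCanonicalDivisor (K := K) (F := F)] {u : F} {n : ℕ}

/-- `x a - x a (P)`. -/
def yAt (x : Fin (n + 1) → F) (P : Place K F) (a : Fin (n + 1)) : F :=
  x a - algebraMap K F (evalAt P (x a))

/-- The functions of `L(m · inf)` are regular away from `inf`. -/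
theorem ord_nonneg_of_mem {inf : Place K F} {m : ℕ} {f : F}
    (hf : f ∈ riemannRochSpace (K := K) (F := F) (Finsupp.single inf (m : ℤ)))
    {P : Place K F} (hP : P ≠ inf) : 0 ≤ P.ord f := by
  rcases (mem_riemannRochSpace_iff.mp hf) P with h0 | h1
  · rw [h0]; simp
  · rw [Finsupp.single_apply, if_neg (Ne.symm hP)] at h1
    simpa using h1

theorem isValAt_yAt (hu : IsGen K u) {inf : Place K F} {m : ℕ} {x : Fin (n + 1) → F}
    (hx : ∀ a, x a ∈ riemannRochSpace (K := K) (F := F) (Finsupp.single inf (m : ℤ)))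
    {P : Place K F} (hP : P ≠ inf) (a : Fin (n + 1)) : IsValAt P (yAt x P a) 0 := by
  have h1 : IsValAt P (x a) (evalAt P (x a)) :=
    evalAt_spec_of_ord (hasResK hu P) (ord_nonneg_of_mem (hx a) hP)
  have h2 := h1.sub (isValAt_algebraMap (P := P) (evalAt P (x a)))
  rwa [sub_self] at h2

/-- For `P ≠ inf` some `x a - x a (P)` is a uniformiser at `P`. -/
theorem exists_index_ord_eq_one (hu : IsGen K u) (inf : Place K F) (m : ℕ)
    (hm : 2 * genus K F + 1 ≤ m) (x : Fin (n + 1) → F)
    (hspan : Submodule.span K (Set.range x) =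
      riemannRochSpace (K := K) (F := F) (Finsupp.single inf (m : ℤ)))
    {P : Place K F} (hP : P ≠ inf) : ∃ a, P.ord (yAt x P a) = 1 := by
  have hx : ∀ a, x a ∈ riemannRochSpace (K := K) (F := F) (Finsupp.single inf (m : ℤ)) :=
    fun a => hspan ▸ Submodule.subset_span ⟨a, rfl⟩
  set D₀ : Divisor K F := Finsupp.single inf (m : ℤ) with hD₀
  have hD₀P : D₀ P = 0 := by rw [hD₀, Finsupp.single_apply, if_neg (Ne.symm hP)]
  -- a section vanishing exactly to first order at `P`
  obtain ⟨f, hf1, hf2⟩ := exists_mem_L_not_mem hu (D₀ - Finsupp.single P 1) P (by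
    rw [map_sub, degree_single' hu, degree_single' hu]
    have : (2 * genus K F + 1 : ℤ) ≤ (m : ℤ) := by exact_mod_cast hm
    omega)
  rw [mem_L_sub_single] at hf1 hf2
  obtain ⟨hfD, hf1'⟩ := hf1
  have hf2' : ¬(f = 0 ∨ 2 ≤ P.ord f) := by
    intro h
    apply hf2
    refine ⟨mem_L_sub_single.mpr ⟨hfD, hf1'⟩, ?_⟩
    rcases h with h | h
    · exact Or.inl h
    · right
      rw [Finsupp.sub_apply, hD₀P, Finsupp.single_eq_same]
      omega
  rw [hD₀P] at hf1'
  push Not at hf2'
  obtain ⟨hf0, hf2''⟩ := hf2'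
  have hford : P.ord f = 1 := by
    rcases hf1' with h | h
    · exact absurd h hf0
    · omega
  -- write `f` in terms of the `x a`
  have hfspan : f ∈ Submodule.span K (Set.range x) := by rw [hspan]; exact hfD
  obtain ⟨c, hc⟩ := (Submodule.mem_span_range_iff_exists_fun K).mp hfspan
  -- the value of `f` at `P` is zero
  have hval : IsValAt P f (∑ a, c a * evalAt P (x a)) := by
    rw [← hc]
    refine IsValAt.finset_sum _ _ _ fun a _ => ?_
    exact (evalAt_spec_of_ord (hasResK hu P) (ord_nonneg_of_mem (hx a) hP)).smul (c a)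
  have hval0 : IsValAt P f 0 := isValAt_zero_iff_ord.mpr (Or.inr (by omega))
  have hsum0 : ∑ a, c a * evalAt P (x a) = 0 := hval.unique hval0
  have hfy : f = ∑ a, c a • yAt x P a := by
    have : ∑ a, c a • yAt x P a = ∑ a, c a • x a - algebraMap K F (∑ a, c a * evalAt P (x a)) := by
      rw [map_sum, ← Finset.sum_sub_distrib]
      refine Finset.sum_congr rfl fun a _ => ?_
      rw [yAt, smul_sub, Algebra.smul_def (c a) (algebraMap K F _), ← map_mul]
    rw [this, hsum0, map_zero, sub_zero, hc]
  -- if no `yAt a` had order one, `f / f` would vanish at `P`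
  by_contra hcon
  push Not at hcon
  have hy : ∀ a, IsValAt P (yAt x P a * f⁻¹) 0 := by
    intro a
    rw [isValAt_zero_iff_ord]
    rcases (isValAt_zero_iff_ord.mp (isValAt_yAt hu hx hP a)) with h | h
    · left; rw [h, zero_mul]
    · right
      have hne : yAt x P a ≠ 0 := by
        intro h0; rw [h0] at h; simp at h
      rw [P.ord_mul hne (inv_ne_zero hf0), P.ord_inv, hford]
      have := hcon a
      omega
  have h1 : IsValAt P (∑ a, c a • (yAt x P a * f⁻¹)) (∑ a, c a * 0) :=
    IsValAt.finset_sum _ _ _ fun a _ => (hy a).smul (c a)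
  have h2 : ∑ a, c a • (yAt x P a * f⁻¹) = 1 := by
    have : ∑ a, c a • (yAt x P a * f⁻¹) = (∑ a, c a • yAt x P a) * f⁻¹ := by
      rw [Finset.sum_mul]
      refine Finset.sum_congr rfl fun a _ => ?_
      rw [smul_mul_assoc]
    rw [this, ← hfy, mul_inv_cancel₀ hf0]
  rw [h2] at h1
  have h3 := h1.unique (isValAt_one (P := P))
  simp at h3

/-- The first index satisfying a predicate. -/
def firstIdx (p : Fin (n + 1) → Prop) (h : ∃ a, p a) : Fin (n + 1) :=
  (Finset.univ.filter p).min' ⟨h.choose, by simp [h.choose_spec]⟩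

theorem firstIdx_spec (p : Fin (n + 1) → Prop) (h : ∃ a, p a) : p (firstIdx p h) := by
  have := Finset.min'_mem (Finset.univ.filter p) ⟨h.choose, by simp [h.choose_spec]⟩
  simpa [firstIdx] using this

theorem firstIdx_congr {p q : Fin (n + 1) → Prop} (hpq : ∀ a, p a ↔ q a) (h : ∃ a, p a)
    (h' : ∃ a, q a) : firstIdx p h = firstIdx q h' := by
  have : p = q := funext fun a => propext (hpq a)
  subst this
  rfl

/-- The system of uniformisers. -/
def tOf (inf : Place K F) (x : Fin (n + 1) → F) (t₀ : F) (P : Place K F) : F :=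
  if P = inf then t₀
  else if h : ∃ a, P.ord (yAt x P a) = 1 then yAt x P (firstIdx _ h) else 0

section Equivariance

variable {Γ : Type*} [Group Γ] (γ : Γ →* SemilinearAut K F)

theorem yAt_smul {x : Fin (n + 1) → F} (hx : ∀ σ a, γ σ • x a = x a) (σ : Γ) (P : Place K F)
    (a : Fin (n + 1)) : yAt x (γ σ • P) a = γ σ • yAt x P a := by
  unfold yAt
  have h := evalAt_smul_aut (γ σ) P (x a)
  rw [hx σ a] at h
  rw [h, smul_sub, SemilinearAut.smul_algebraMap, hx σ a]

theorem ord_yAt_smul {x : Fin (n + 1) → F} (hx : ∀ σ a, γ σ • x a = x a) (σ : Γ)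
    (P : Place K F) (a : Fin (n + 1)) :
    (γ σ • P).ord (yAt x (γ σ • P) a) = P.ord (yAt x P a) := by
  rw [yAt_smul γ hx, SemilinearAut.ord_smul]

/-- **Equivariant systems of uniformisers exist.** -/
theorem exists_unifSystem (hu : IsGen K u) (inf : Place K F) (hinf : ∀ σ, γ σ • inf = inf)
    (m : ℕ) (hm : 2 * genus K F + 1 ≤ m) (x : Fin (n + 1) → F)
    (hx : ∀ σ a, γ σ • x a = x a)
    (hspan : Submodule.span K (Set.range x) =
      riemannRochSpace (K := K) (F := F) (Finsupp.single inf (m : ℤ)))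
    (t₀ : F) (ht₀ : inf.ord t₀ = 1) (ht₀fix : ∀ σ, γ σ • t₀ = t₀) :
    ∃ t : Place K F → F, IsUnifSystem γ t ∧ t inf = t₀ := by
  refine ⟨tOf inf x t₀, ⟨fun P => ?_, fun σ P => ?_⟩, by simp [tOf]⟩
  · by_cases hP : P = inf
    · rw [tOf, if_pos hP, hP]; exact ht₀
    · have h := exists_index_ord_eq_one hu inf m hm x hspan hP
      rw [tOf, if_neg hP, dif_pos h]
      exact firstIdx_spec _ h
  · by_cases hP : P = inf
    · rw [hP, hinf σ, tOf, if_pos rfl, ht₀fix σ]
    · have hσP : γ σ • P ≠ inf := by
        intro h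
        apply hP
        rw [← hinf σ] at h
        exact MulAction.injective (γ σ) h
      have h := exists_index_ord_eq_one hu inf m hm x hspan hP
      have h' := exists_index_ord_eq_one hu inf m hm x hspan hσP
      rw [tOf, tOf, if_neg hσP, if_neg hP, dif_pos h, dif_pos h']
      rw [firstIdx_congr (fun a => by rw [ord_yAt_smul γ hx σ P a]) h' h]
      exact yAt_smul γ hx σ P _

end Equivariance

end

end Fermat.Agent.MW.Inst.Unif49
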